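/-
S37 helper (helper157), piece NORM-ID, part B: the "swap" embedding.

For a prime `ℓ ∤ N` let `F = K(j(q^d) : d ∣ N)` and `F' = K(j(q^d) : d ∣ Nℓ)` inside `K((q))`.
If `[F' : F] = ℓ + 1` there is a ring homomorphism `W : F' → K((q))` with
`W y = y(q^ℓ)` for `y ∈ F` and `W (y(q^ℓ)) = y` for `y ∈ F` (the Atkin–Lehner swap of the two
degeneracy maps, constructed purely algebraically from the modular polynomials of
`Fermat.Agent.S28.H626`).
-/
import Mathlib
import Fermat.Prelude.Def_ModularCurve_X0ModL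
import Fermat.Agent.S28.H626.Tower

set_option autoImplicit false
set_option linter.unusedSectionVars false
set_option linter.style.haveILetI false

noncomputable section

open ModularCurve HahnSeries Polynomial IntermediateField
open Fermat.Agent.S28.H626

namespace Fermat.Agent.S37.H157

/-! ### Extending a ring homomorphism to a simple algebraic extension -/

section LiftSimple

variable {F L M : Type*} [Field F] [Field L] [Algebra F L] [CommRing M] {x : L}

/-- Extension of `i : F →+* M` to `F⟮x⟯`, sending `x` to a root `y` of the (image of the) minimal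
polynomial of `x`. -/
def liftSimple (hx : IsIntegral F x) (i : F →+* M) (y : M)
    (h : (minpoly F x).eval₂ i y = 0) : ↥F⟮x⟯ →+* M :=
  (AdjoinRoot.lift i y h).comp
    ((adjoinRootEquivAdjoin F hx).symm : ↥F⟮x⟯ →+* AdjoinRoot (minpoly F x))

theorem liftSimple_algebraMap (hx : IsIntegral F x) (i : F →+* M) (y : M)
    (h : (minpoly F x).eval₂ i y = 0) (a : F) :
    liftSimple hx i y h (algebraMap F ↥F⟮x⟯ a) = i a := by
  have h1 : (adjoinRootEquivAdjoin F hx).symm (algebraMap F ↥F⟮x⟯ a)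
      = AdjoinRoot.of (minpoly F x) a := by
    rw [AlgEquiv.commutes, AdjoinRoot.algebraMap_eq]
  show AdjoinRoot.lift i y h ((adjoinRootEquivAdjoin F hx).symm (algebraMap F ↥F⟮x⟯ a)) = i a
  rw [h1, AdjoinRoot.lift_of]

theorem liftSimple_gen (hx : IsIntegral F x) (i : F →+* M) (y : M)
    (h : (minpoly F x).eval₂ i y = 0) :
    liftSimple hx i y h (AdjoinSimple.gen F x) = y := by
  have h1 : (adjoinRootEquivAdjoin F hx).symm (AdjoinSimple.gen F x)
      = AdjoinRoot.root (minpoly F x) := by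
    rw [AlgEquiv.symm_apply_eq, adjoinRootEquivAdjoin_apply_root]
  show AdjoinRoot.lift i y h ((adjoinRootEquivAdjoin F hx).symm (AdjoinSimple.gen F x)) = y
  rw [h1, AdjoinRoot.lift_root]

end LiftSimple

/-! ### Inclusion between subfields of different kinds -/

section InclHom

variable {L S T : Type*} [Field L] [SetLike S L] [SetLike T L] [SubringClass S L]
  [SubringClass T L]

/-- The inclusion `A → B` of two subrings (of possibly different bundled kinds) of `L`. -/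
def inclHom (A : S) (B : T) (h : ∀ x : L, x ∈ A → x ∈ B) : ↥A →+* ↥B where
  toFun x := ⟨x.1, h x.1 x.2⟩
  map_one' := rfl
  map_mul' _ _ := rfl
  map_zero' := rfl
  map_add' _ _ := rfl

@[simp] theorem coe_inclHom (A : S) (B : T) (h : ∀ x : L, x ∈ A → x ∈ B) (x : A) :
    ((inclHom A B h x : B) : L) = (x : L) := rfl

end InclHom


/-! ### The swap embedding -/

section Swap

variable (K : Type*) [Field K] (N ℓ : ℕ) [NeZero N] [NeZero ℓ]

/-- `j` as an element of the level-`N` field. -/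
def jIn : ↥(modularFunctionFieldFullC K N) := ⟨jqModC K, jqModC_mem_full K N⟩

@[simp] theorem coe_jIn : ((jIn K N : modularFunctionFieldFullC K N) : LaurentSeries K) = jqModC K :=
  rfl

/-- The base embedding `F → K((q))`, `y ↦ y(q^ℓ)`. -/
def baseHom : ↥(modularFunctionFieldFullC K N) →+* LaurentSeries K :=
  (qExpand K ℓ).comp (algebraMap ↥(modularFunctionFieldFullC K N) (LaurentSeries K))

@[simp] theorem baseHom_apply (y : modularFunctionFieldFullC K N) :
    baseHom K N ℓ y = qExpand K ℓ (y : LaurentSeries K) := rfl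

variable {K N ℓ}

theorem aeval_jdl_spec {Φ : Polynomial (Polynomial ℤ)} (hΦ : IsModPoly ℓ Φ) :
    Polynomial.aeval (jd K ℓ) (spec Φ (jIn K N)) = 0 := by
  rw [Polynomial.aeval_def, Polynomial.eval₂_eq_eval_map, map_spec, eval_spec]
  show ev2 Φ (jqModC K) (jd K ℓ) = 0
  have := ev2_jd_up (k := K) hΦ 1
  rwa [jd_one, jd_congr K (one_mul ℓ)] at this

theorem isIntegral_jdl {Φ : Polynomial (Polynomial ℤ)} (hΦ : IsModPoly ℓ Φ) :
    IsIntegral ↥(modularFunctionFieldFullC K N) (jd K ℓ) :=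
  ⟨spec Φ (jIn K N), spec_monic hΦ.monic _, aeval_jdl_spec hΦ⟩

theorem eval₂_baseHom_spec {Φ : Polynomial (Polynomial ℤ)} (hΦ : IsModPoly ℓ Φ) :
    (spec Φ (jIn K N)).eval₂ (baseHom K N ℓ) (jqModC K) = 0 := by
  rw [Polynomial.eval₂_eq_eval_map, map_spec, eval_spec]
  show ev2 Φ (qExpand K ℓ (jqModC K)) (jqModC K) = 0
  have := ev2_jd_down (k := K) hΦ 1
  rwa [jd_one, jd_congr K (one_mul ℓ)] at this

theorem minpoly_jdl_eq {Φ : Polynomial (Polynomial ℤ)} (hΦ : IsModPoly ℓ Φ)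
    (hdeg : (minpoly ↥(modularFunctionFieldFullC K N) (jd K ℓ)).natDegree = ℓ + 1) :
    minpoly ↥(modularFunctionFieldFullC K N) (jd K ℓ) = spec Φ (jIn K N) := by
  have hdvd : minpoly ↥(modularFunctionFieldFullC K N) (jd K ℓ) ∣ spec Φ (jIn K N) :=
    minpoly.dvd ↥(modularFunctionFieldFullC K N) (jd K ℓ) (aeval_jdl_spec hΦ)
  have hle : (spec Φ (jIn K N)).natDegree
      ≤ (minpoly ↥(modularFunctionFieldFullC K N) (jd K ℓ)).natDegree := by
    rw [spec_natDegree hΦ.monic, hΦ.natDegree_eq, hdeg]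
  exact (eq_of_monic_of_dvd_of_natDegree_le (minpoly.monic (isIntegral_jdl (K := K) (N := N) hΦ))
    (spec_monic hΦ.monic _) hdvd hle).symm

theorem eval₂_baseHom_minpoly {Φ : Polynomial (Polynomial ℤ)} (hΦ : IsModPoly ℓ Φ)
    (hdeg : (minpoly ↥(modularFunctionFieldFullC K N) (jd K ℓ)).natDegree = ℓ + 1) :
    (minpoly ↥(modularFunctionFieldFullC K N) (jd K ℓ)).eval₂ (baseHom K N ℓ) (jqModC K) = 0 := by
  rw [minpoly_jdl_eq hΦ hdeg]
  exact eval₂_baseHom_spec hΦ

/-- Generation: `F' ≤ F(j(q^ℓ))`. -/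
theorem full_mul_le_adjoin_jdl (hℓ : ℓ.Prime) (hℓN : ¬ ℓ ∣ N) (H : HasModPolys K (N * ℓ)) :
    ∀ x : LaurentSeries K, x ∈ modularFunctionFieldFullC K (N * ℓ) →
      x ∈ (↥(modularFunctionFieldFullC K N))⟮jd K ℓ⟯ := by
  haveI : NeZero (ℓ ^ (0 + 1)) := ⟨pow_ne_zero _ hℓ.ne_zero⟩
  have h := full_mul_le_adjoin (k := K) (M := N) (p := ℓ) (a := 0) hℓ H (by simp)
    (by simpa using hℓN)
  have hx : jd K (ℓ ^ (0 + 1)) = jd K ℓ := jd_congr K (by simp)
  rw [hx] at h
  intro x hxm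
  exact h hxm

/-- The other inclusion `F(j(q^ℓ)) ≤ F'`. -/
theorem adjoin_jdl_le_full :
    ∀ x : LaurentSeries K, x ∈ (↥(modularFunctionFieldFullC K N))⟮jd K ℓ⟯ →
      x ∈ modularFunctionFieldFullC K (N * ℓ) := by
  have hFF' : modularFunctionFieldFullC K N ≤ modularFunctionFieldFullC K (N * ℓ) :=
    full_degeneracyC_le K (Dvd.intro ℓ rfl)
  have h : (↥(modularFunctionFieldFullC K N))⟮jd K ℓ⟯ ≤ extendScalars hFF' := by
    rw [adjoin_le_iff]
    rintro x hx
    rw [Set.mem_singleton_iff] at hx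
    subst hx
    exact jd_mem_full (N * ℓ) ℓ (Dvd.intro_left N rfl)
  intro x hx
  exact h hx

end Swap


section SwapDef

variable {K : Type*} [Field K] {N ℓ : ℕ} [NeZero N] [NeZero ℓ]

/-- The swap embedding `W : F' → K((q))`. -/
def swapHom {Φ : Polynomial (Polynomial ℤ)} (hℓ : ℓ.Prime) (hℓN : ¬ ℓ ∣ N)
    (H : HasModPolys K (N * ℓ)) (hΦ : IsModPoly ℓ Φ)
    (hdeg : (minpoly ↥(modularFunctionFieldFullC K N) (jd K ℓ)).natDegree = ℓ + 1) :
    ↥(modularFunctionFieldFullC K (N * ℓ)) →+* LaurentSeries K :=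
  (liftSimple (isIntegral_jdl hΦ) (baseHom K N ℓ) (jqModC K)
      (eval₂_baseHom_minpoly hΦ hdeg)).comp
    (inclHom (modularFunctionFieldFullC K (N * ℓ)) (↥(modularFunctionFieldFullC K N))⟮jd K ℓ⟯
      (full_mul_le_adjoin_jdl hℓ hℓN H))

variable {Φ : Polynomial (Polynomial ℤ)} (hℓ : ℓ.Prime) (hℓN : ¬ ℓ ∣ N)
  (H : HasModPolys K (N * ℓ)) (hΦ : IsModPoly ℓ Φ)
  (hdeg : (minpoly ↥(modularFunctionFieldFullC K N) (jd K ℓ)).natDegree = ℓ + 1)

/-- (W1) `W y = y(q^ℓ)` for `y ∈ F`. -/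
theorem swapHom_of_mem (y : LaurentSeries K) (hy : y ∈ modularFunctionFieldFullC K N)
    (hy' : y ∈ modularFunctionFieldFullC K (N * ℓ)) :
    swapHom hℓ hℓN H hΦ hdeg ⟨y, hy'⟩ = qExpand K ℓ y := by
  have h1 : inclHom (modularFunctionFieldFullC K (N * ℓ))
      (↥(modularFunctionFieldFullC K N))⟮jd K ℓ⟯ (full_mul_le_adjoin_jdl hℓ hℓN H) ⟨y, hy'⟩
      = algebraMap ↥(modularFunctionFieldFullC K N) ↥(↥(modularFunctionFieldFullC K N))⟮jd K ℓ⟯
          ⟨y, hy⟩ := Subtype.ext rfl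
  rw [swapHom, RingHom.comp_apply, h1, liftSimple_algebraMap]
  rfl

/-- (W2) `W (j(q^ℓ)) = j`. -/
theorem swapHom_jdl (hm : jd K ℓ ∈ modularFunctionFieldFullC K (N * ℓ)) :
    swapHom hℓ hℓN H hΦ hdeg ⟨jd K ℓ, hm⟩ = jqModC K := by
  have h1 : inclHom (modularFunctionFieldFullC K (N * ℓ))
      (↥(modularFunctionFieldFullC K N))⟮jd K ℓ⟯ (full_mul_le_adjoin_jdl hℓ hℓN H) ⟨jd K ℓ, hm⟩
      = AdjoinSimple.gen ↥(modularFunctionFieldFullC K N) (jd K ℓ) := Subtype.ext rfl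
  rw [swapHom, RingHom.comp_apply, h1, liftSimple_gen]

/-- transport of a two-variable relation from `K((q))` to a subfield -/
theorem ev2_subtype (E : IntermediateField K (LaurentSeries K)) (Ψ : Polynomial (Polynomial ℤ))
    (a b : LaurentSeries K) (ha : a ∈ E) (hb : b ∈ E) (h : ev2 Ψ a b = 0) :
    ev2 Ψ (⟨a, ha⟩ : E) (⟨b, hb⟩ : E) = 0 := by
  have h1 := map_ev2 (algebraMap ↥E (LaurentSeries K)) Ψ (⟨a, ha⟩ : E) (⟨b, hb⟩ : E)
  have h2 : ev2 Ψ (algebraMap ↥E (LaurentSeries K) ⟨a, ha⟩)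
      (algebraMap ↥E (LaurentSeries K) ⟨b, hb⟩) = 0 := h
  rw [← h1] at h2
  exact (algebraMap ↥E (LaurentSeries K)).injective (by rw [h2, map_zero])

/-- a relation is transported by the swap -/
theorem ev2_swapHom (Ψ : Polynomial (Polynomial ℤ))
    (a b : LaurentSeries K) (ha : a ∈ modularFunctionFieldFullC K (N * ℓ))
    (hb : b ∈ modularFunctionFieldFullC K (N * ℓ)) (h : ev2 Ψ a b = 0) :
    ev2 Ψ (swapHom hℓ hℓN H hΦ hdeg ⟨a, ha⟩) (swapHom hℓ hℓN H hΦ hdeg ⟨b, hb⟩) = 0 := by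
  rw [← map_ev2, ev2_subtype _ Ψ a b ha hb h, map_zero]

end SwapDef


/-! ### The swap on the generators -/

section CommonRoot

variable {K : Type*} [Field K]

/-- **Uniqueness of the common root.** A common root `w ∈ K((q))` of `Φ_r(j(q^e), X)` and
`Φ_ℓ(j(q^{erℓ}), X)` is `j(q^{er})`. -/
theorem eq_jd_of_common_root {r ℓ : ℕ} [NeZero r] [NeZero ℓ] (hr : r.Prime) (hℓ : ℓ.Prime)
    [NeZero (r : K)] [NeZero (ℓ : K)]
    {Φr Φℓ : Polynomial (Polynomial ℤ)} (hΦr : IsModPoly r Φr) (hΦℓ : IsModPoly ℓ Φℓ)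
    (e : ℕ) [NeZero e] (w : LaurentSeries K)
    (h1 : ev2 Φr (jd K e) w = 0) (h2 : ev2 Φℓ (jd K (e * r * ℓ)) w = 0) :
    w = jd K (e * r) := by
  classical
  obtain ⟨ζr, hζr⟩ := exists_primitiveRoot_unit (AlgebraicClosure K) r hr.ne_zero
  obtain ⟨ζℓ, hζℓ⟩ := exists_primitiveRoot_unit (AlgebraicClosure K) ℓ hℓ.ne_zero
  have he0 : 0 < e := Nat.pos_of_ne_zero (NeZero.ne e)
  have hr2 : 2 ≤ r := hr.two_le
  set ι : LaurentSeries K →+* LaurentSeries (AlgebraicClosure K) :=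
    embHom K (AlgebraicClosure K) r with hι
  have h1' : ev2 Φr (jTw (AlgebraicClosure K) 1 (e * r)) (ι w) = 0 := by
    have := congrArg ι h1
    rw [map_ev2, map_zero, hι, embHom_jd] at this
    rw [← hι] at this
    rwa [jTw_congr (1 : (AlgebraicClosure K)ˣ) (mul_comm r e)] at this
  have h2' : ev2 Φℓ (jTw (AlgebraicClosure K) 1 (r * e * r * ℓ)) (ι w) = 0 := by
    have := congrArg ι h2
    rw [map_ev2, map_zero, hι, embHom_jd] at this
    rw [← hι] at this
    rwa [jTw_congr (1 : (AlgebraicClosure K)ˣ)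
      (show r * (e * r * ℓ) = r * e * r * ℓ by ring)] at this
  have hroot1 : ι w ∈ rootMultiset r ζr e := by
    rw [← roots_spec hr.one_lt hΦr hζr e,
      Polynomial.mem_roots (spec_monic hΦr.monic _).ne_zero, Polynomial.IsRoot, eval_spec]
    exact h1'
  have hroot2 : ι w ∈ rootMultiset ℓ ζℓ (r * e * r) := by
    rw [← roots_spec hℓ.one_lt hΦℓ hζℓ (r * e * r),
      Polynomial.mem_roots (spec_monic hΦℓ.monic _).ne_zero, Polynomial.IsRoot, eval_spec]
    exact h2'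
  rcases mem_rootMultiset.mp hroot1 with hw | ⟨c, -, hw⟩
  · apply (embHom K (AlgebraicClosure K) r).injective
    rw [← hι, hw, hι, embHom_jd]
    exact jTw_congr _ (by ring)
  · exfalso
    have hlt : e < r * e * r := by
      have h4 : 2 * e * 2 ≤ r * e * r := Nat.mul_le_mul (Nat.mul_le_mul hr2 le_rfl) hr2
      omega
    rcases mem_rootMultiset.mp hroot2 with hw2 | ⟨b, -, hw2⟩
    · have h3 := (jTw_inj (hw.symm.trans hw2)).1
      have : r * e * r ≤ r * e * r * ℓ * ℓ := by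
        have hℓ1 : 1 ≤ ℓ := hℓ.one_lt.le
        calc r * e * r = r * e * r * 1 * 1 := by ring
          _ ≤ r * e * r * ℓ * ℓ := by gcongr
      omega
    · have h3 := (jTw_inj (hw.symm.trans hw2)).1
      omega

end CommonRoot

section SwapJd

variable {K : Type*} [Field K] {N ℓ : ℕ} [NeZero N] [NeZero ℓ]
variable {Φ : Polynomial (Polynomial ℤ)} (hℓ : ℓ.Prime) (hℓN : ¬ ℓ ∣ N)
  (H : HasModPolys K (N * ℓ)) (hΦ : IsModPoly ℓ Φ)
  (hdeg : (minpoly ↥(modularFunctionFieldFullC K N) (jd K ℓ)).natDegree = ℓ + 1)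

/-- (W3) `W (j(q^{dℓ})) = j(q^d)` for every `d ∣ N`. -/
theorem swapHom_jd_mul : ∀ (d : ℕ) [NeZero d], d ∣ N →
    ∀ hm : jd K (d * ℓ) ∈ modularFunctionFieldFullC K (N * ℓ),
      swapHom hℓ hℓN H hΦ hdeg ⟨jd K (d * ℓ), hm⟩ = jd K d := by
  intro d
  induction d using Nat.strong_induction_on with
  | _ d ih =>
    intro instd hd hm
    rcases eq_or_ne d 1 with hd1 | hd1
    · subst hd1
      have h1 : (⟨jd K (1 * ℓ), hm⟩ : modularFunctionFieldFullC K (N * ℓ))
          = ⟨jd K ℓ, jd_mem_full (N * ℓ) ℓ (Dvd.intro_left N rfl)⟩ :=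
        Subtype.ext (jd_congr K (one_mul ℓ))
      rw [h1, swapHom_jdl, jd_one]
    · obtain ⟨r, hr, e, hde⟩ : ∃ r, r.Prime ∧ ∃ e, d = e * r :=
        ⟨d.minFac, Nat.minFac_prime hd1, d / d.minFac,
          (Nat.div_mul_cancel (Nat.minFac_dvd d)).symm⟩
      subst hde
      have he0 : e ≠ 0 := fun h => (NeZero.ne (e * r)) (by rw [h, zero_mul])
      haveI : NeZero e := ⟨he0⟩
      haveI : NeZero r := ⟨hr.ne_zero⟩
      have heN : e ∣ N := (Dvd.intro r rfl).trans hd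
      have hrN : r ∣ N := (Dvd.intro_left e rfl).trans hd
      have helt : e < e * r := by
        have := hr.two_le
        have := Nat.pos_of_ne_zero he0
        nlinarith
      obtain ⟨hrK, Φr, hΦr⟩ := H r hr (hrN.trans (Dvd.intro ℓ rfl))
      obtain ⟨hℓK, -, -⟩ := H ℓ hℓ (Dvd.intro_left N rfl)
      haveI : NeZero (r : K) := ⟨hrK⟩
      haveI : NeZero (ℓ : K) := ⟨hℓK⟩
      have hme : jd K (e * ℓ) ∈ modularFunctionFieldFullC K (N * ℓ) :=
        jd_mem_full (N * ℓ) (e * ℓ) (mul_dvd_mul_right heN ℓ)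
      have ihe := ih e helt heN hme
      -- relation A
      have hA : ev2 Φr (jd K e) (swapHom hℓ hℓN H hΦ hdeg ⟨jd K (e * r * ℓ), hm⟩) = 0 := by
        have hrel : ev2 Φr (jd K (e * ℓ)) (jd K (e * r * ℓ)) = 0 := by
          have := ev2_jd_up (k := K) hΦr (e * ℓ)
          rwa [jd_congr K (show e * ℓ * r = e * r * ℓ by ring)] at this
        have := ev2_swapHom hℓ hℓN H hΦ hdeg Φr _ _ hme hm hrel
        rwa [ihe] at this
      -- relation B
      have hB : ev2 Φ (jd K (e * r * ℓ)) (swapHom hℓ hℓN H hΦ hdeg ⟨jd K (e * r * ℓ), hm⟩) = 0 := by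
        have hrel : ev2 Φ (jd K (e * r)) (jd K (e * r * ℓ)) = 0 := ev2_jd_up (k := K) hΦ (e * r)
        have hmem : jd K (e * r) ∈ modularFunctionFieldFullC K N := jd_mem_full N (e * r) hd
        have hmem' : jd K (e * r) ∈ modularFunctionFieldFullC K (N * ℓ) :=
          full_degeneracyC_le K (Dvd.intro ℓ rfl) hmem
        have := ev2_swapHom hℓ hℓN H hΦ hdeg Φ _ _ hmem' hm hrel
        rw [swapHom_of_mem hℓ hℓN H hΦ hdeg _ hmem hmem'] at this
        have hq : qExpand K ℓ (jd K (e * r)) = jd K (e * r * ℓ) := by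
          show qExpand K ℓ (qExpand K (e * r) (jqModC K)) = _
          rw [qExpand_qExpand]
          exact jd_congr K (mul_comm _ _)
        rwa [hq] at this
      exact eq_jd_of_common_root hr hℓ hΦr hΦ e _ hA hB

end SwapJd

end Fermat.Agent.S37.H157

end
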