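/-
S37 helper (helper157), piece NORM-ID, parts C-D: the norm formula.

For a prime `ℓ ∤ N`, `F = K(j(q^d) : d ∣ N) ⊆ F' = K(j(q^d) : d ∣ Nℓ) ⊆ K((q))`, `[F' : F] = ℓ + 1`,
`ζ` a primitive `ℓ`-th root of unity in `K` (`char K = 0`):

  `(N_{F'/F} (y(q^ℓ)))(q^ℓ) = y(q^{ℓ²}) · ∏_{b < ℓ} y(ζ^b q)`      for `y ∈ F`,

i.e. `N_{F'/F}(β y) = y(q^ℓ) · ∏_b y(ζ^b q^{1/ℓ})`.
-/
import Mathlib
import Fermat.Prelude.Def_ModularCurve_X0ModL
import Fermat.Agent.S28.H626.Tower
import Fermat.Agent.S37.H157.NormEmb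
import Fermat.Agent.S37.H157.NormSwap

set_option autoImplicit false
set_option linter.unusedSectionVars false
set_option linter.style.haveILetI false

noncomputable section

open ModularCurve HahnSeries Polynomial IntermediateField
open Fermat.Agent.S28.H626

namespace Fermat.Agent.S37.H157

section Beta

variable (K : Type*) [Field K] (N ℓ : ℕ) [NeZero N] [NeZero ℓ]

theorem full_le_full_mul :
    modularFunctionFieldFullC K N ≤ modularFunctionFieldFullC K (N * ℓ) :=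
  full_degeneracyC_le K (Dvd.intro ℓ rfl)

theorem qExpand_mem_full_mul {y : LaurentSeries K} (hy : y ∈ modularFunctionFieldFullC K N) :
    qExpand K ℓ y ∈ modularFunctionFieldFullC K (N * ℓ) :=
  full_degeneracyC_map_le K N ℓ ⟨y, hy, rfl⟩

/-- The degeneracy map `β : F → F'`, `y ↦ y(q^ℓ)`. -/
def betaHom : ↥(modularFunctionFieldFullC K N) →+* ↥(modularFunctionFieldFullC K (N * ℓ)) where
  toFun y := ⟨qExpand K ℓ (y : LaurentSeries K), qExpand_mem_full_mul K N ℓ y.2⟩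
  map_one' := Subtype.ext (map_one (qExpand K ℓ))
  map_mul' _ _ := Subtype.ext (map_mul (qExpand K ℓ) _ _)
  map_zero' := Subtype.ext (map_zero (qExpand K ℓ))
  map_add' _ _ := Subtype.ext (map_add (qExpand K ℓ) _ _)

@[simp] theorem coe_betaHom (y : modularFunctionFieldFullC K N) :
    ((betaHom K N ℓ y : modularFunctionFieldFullC K (N * ℓ)) : LaurentSeries K)
      = qExpand K ℓ (y : LaurentSeries K) := rfl

end Beta

section SwapBeta

variable {K : Type*} [Field K] {N ℓ : ℕ} [NeZero N] [NeZero ℓ]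
variable {Φ : Polynomial (Polynomial ℤ)} (hℓ : ℓ.Prime) (hℓN : ¬ ℓ ∣ N)
  (H : HasModPolys K (N * ℓ)) (hΦ : IsModPoly ℓ Φ)
  (hdeg : (minpoly ↥(modularFunctionFieldFullC K N) (jd K ℓ)).natDegree = ℓ + 1)

/-- (W4) `W ∘ β = id` on `F`. -/
theorem swapHom_betaHom (y : modularFunctionFieldFullC K N) :
    swapHom hℓ hℓN H hΦ hdeg (betaHom K N ℓ y) = (y : LaurentSeries K) := by
  obtain ⟨y, hy⟩ := y
  show ((swapHom hℓ hℓN H hΦ hdeg).comp (betaHom K N ℓ)) ⟨y, hy⟩ = y
  set f := (swapHom hℓ hℓN H hΦ hdeg).comp (betaHom K N ℓ) with hf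
  have key : ∀ (x : LaurentSeries K) (hx : x ∈ IntermediateField.adjoin K (divisorExpansionsC K N)),
      f ⟨x, hx⟩ = x := by
    intro x hx
    induction hx using IntermediateField.adjoin_induction with
    | mem x hx =>
      obtain ⟨d, hne, hdvd, rfl⟩ := hx
      haveI := hne
      have hm : jd K (d * ℓ) ∈ modularFunctionFieldFullC K (N * ℓ) :=
        jd_mem_full (N * ℓ) (d * ℓ) (mul_dvd_mul_right hdvd ℓ)
      have h1 : betaHom K N ℓ ⟨qExpand K d (jqModC K), subset_adjoin K _ ⟨d, hne, hdvd, rfl⟩⟩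
          = ⟨jd K (d * ℓ), hm⟩ := by
        apply Subtype.ext
        show qExpand K ℓ (qExpand K d (jqModC K)) = _
        rw [qExpand_qExpand]
        exact jd_congr K (mul_comm _ _)
      rw [hf, RingHom.comp_apply, h1, swapHom_jd_mul hℓ hℓN H hΦ hdeg d hdvd hm]
    | algebraMap c =>
      have hc : algebraMap K (LaurentSeries K) c ∈ modularFunctionFieldFullC K N :=
        (modularFunctionFieldFullC K N).algebraMap_mem c
      have hq : qExpand K ℓ (algebraMap K (LaurentSeries K) c) = algebraMap K (LaurentSeries K) c :=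
        (qExpandAlgHomC K ℓ).commutes c
      have h1 : betaHom K N ℓ ⟨algebraMap K (LaurentSeries K) c, hc⟩
          = ⟨algebraMap K (LaurentSeries K) c, full_le_full_mul K N ℓ hc⟩ := Subtype.ext hq
      rw [hf, RingHom.comp_apply]
      rw [h1, swapHom_of_mem hℓ hℓN H hΦ hdeg _ hc, hq]
    | add x y hx hy ihx ihy =>
      have : (⟨x + y, add_mem hx hy⟩ : modularFunctionFieldFullC K N) = ⟨x, hx⟩ + ⟨y, hy⟩ := rfl
      rw [this, map_add, ihx, ihy]
    | inv x hx ihx =>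
      have : (⟨x⁻¹, inv_mem hx⟩ : modularFunctionFieldFullC K N) = (⟨x, hx⟩)⁻¹ := rfl
      rw [this, map_inv₀, ihx]
    | mul x y hx hy ihx ihy =>
      have : (⟨x * y, mul_mem hx hy⟩ : modularFunctionFieldFullC K N) = ⟨x, hx⟩ * ⟨y, hy⟩ := rfl
      rw [this, map_mul, ihx, ihy]
  exact key y hy

end SwapBeta


/-! ### The norm formula -/

section Norm

variable {K : Type*} [Field K] {N ℓ : ℕ} [NeZero N] [NeZero ℓ]

variable (K N ℓ) in
/-- `F'` as an `F`-algebra via the inclusion (this is the Prelude's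
`algebraAlong (heckeAlphaBar …)` shape). -/
abbrev algIncl :
    Algebra ↥(modularFunctionFieldFullC K N) ↥(modularFunctionFieldFullC K (N * ℓ)) :=
  (IntermediateField.inclusion (full_le_full_mul K N ℓ)).toRingHom.toAlgebra

theorem algebraMap_algIncl (a : modularFunctionFieldFullC K N) :
    @algebraMap _ _ _ _ (algIncl K N ℓ) a = IntermediateField.inclusion (full_le_full_mul K N ℓ) a :=
  rfl

theorem coe_algebraMap_algIncl (a : modularFunctionFieldFullC K N) :
    ((@algebraMap _ _ _ _ (algIncl K N ℓ) a : modularFunctionFieldFullC K (N * ℓ)) :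
      LaurentSeries K) = (a : LaurentSeries K) := by
  rw [algebraMap_algIncl, IntermediateField.coe_inclusion]

/-- the degree of the minimal polynomial of `j(q^ℓ)` over `F` from `[F' : F] = ℓ + 1`. -/
theorem natDegree_minpoly_jdl {Φ : Polynomial (Polynomial ℤ)} (hℓ : ℓ.Prime) (hℓN : ¬ ℓ ∣ N)
    (H : HasModPolys K (N * ℓ)) (hΦ : IsModPoly ℓ Φ)
    (hfin : @Module.finrank ↥(modularFunctionFieldFullC K N)
      ↥(modularFunctionFieldFullC K (N * ℓ)) _ _ (algIncl K N ℓ).toModule = ℓ + 1) :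
    (minpoly ↥(modularFunctionFieldFullC K N) (jd K ℓ)).natDegree = ℓ + 1 := by
  letI := algIncl K N ℓ
  rw [← IntermediateField.adjoin.finrank (isIntegral_jdl (K := K) (N := N) hΦ), ← hfin]
  let e : ↥(↥(modularFunctionFieldFullC K N))⟮jd K ℓ⟯ ≃ₗ[↥(modularFunctionFieldFullC K N)]
      ↥(modularFunctionFieldFullC K (N * ℓ)) :=
    { toFun := fun y => ⟨y.1, adjoin_jdl_le_full y.1 y.2⟩
      invFun := fun x => ⟨x.1, full_mul_le_adjoin_jdl hℓ hℓN H x.1 x.2⟩
      map_add' := fun _ _ => rfl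
      map_smul' := fun a y => by
        apply Subtype.ext
        have h1 : ((a • y : ↥(↥(modularFunctionFieldFullC K N))⟮jd K ℓ⟯) : LaurentSeries K)
            = (a : LaurentSeries K) * (y : LaurentSeries K) := by
          rw [IntermediateField.coe_smul, Algebra.smul_def]
          rfl
        have h2 : (((a • (⟨y.1, adjoin_jdl_le_full y.1 y.2⟩ :
            modularFunctionFieldFullC K (N * ℓ))) : modularFunctionFieldFullC K (N * ℓ)) :
              LaurentSeries K) = (a : LaurentSeries K) * (y : LaurentSeries K) := by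
          rw [Algebra.smul_def, MulMemClass.coe_mul, coe_algebraMap_algIncl]
        exact h1.trans h2.symm
      left_inv := fun _ => rfl
      right_inv := fun _ => rfl }
  exact e.finrank_eq


/-- the `ℓ + 1` embeddings of `F'` over `F → K((q))`, `y ↦ y(q^ℓ)` -/
def embFamily {Φ : Polynomial (Polynomial ℤ)} (hℓ : ℓ.Prime) (hℓN : ¬ ℓ ∣ N)
    (H : HasModPolys K (N * ℓ)) (hΦ : IsModPoly ℓ Φ)
    (hdeg : (minpoly ↥(modularFunctionFieldFullC K N) (jd K ℓ)).natDegree = ℓ + 1) (ζ : Kˣ) :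
    Fin (ℓ + 1) → (↥(modularFunctionFieldFullC K (N * ℓ)) →+* LaurentSeries K) :=
  Fin.lastCases
    ((qExpand K ℓ).comp (algebraMap ↥(modularFunctionFieldFullC K (N * ℓ)) (LaurentSeries K)))
    (fun b => (twist (ζ ^ (b : ℕ))).comp (swapHom hℓ hℓN H hΦ hdeg))

section EmbFamily

variable {Φ : Polynomial (Polynomial ℤ)} (hℓ : ℓ.Prime) (hℓN : ¬ ℓ ∣ N)
  (H : HasModPolys K (N * ℓ)) (hΦ : IsModPoly ℓ Φ)
  (hdeg : (minpoly ↥(modularFunctionFieldFullC K N) (jd K ℓ)).natDegree = ℓ + 1) (ζ : Kˣ)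

theorem embFamily_last (x : modularFunctionFieldFullC K (N * ℓ)) :
    embFamily hℓ hℓN H hΦ hdeg ζ (Fin.last ℓ) x = qExpand K ℓ (x : LaurentSeries K) := by
  rw [embFamily, Fin.lastCases_last]
  rfl

theorem embFamily_castSucc (b : Fin ℓ) (x : modularFunctionFieldFullC K (N * ℓ)) :
    embFamily hℓ hℓN H hΦ hdeg ζ (Fin.castSucc b) x
      = twist (ζ ^ (b : ℕ)) (swapHom hℓ hℓN H hΦ hdeg x) := by
  rw [embFamily, Fin.lastCases_castSucc]
  rfl

theorem twist_pow_qExpand (hζ : ζ ^ ℓ = 1) (b : ℕ) (y : LaurentSeries K) :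
    twist (ζ ^ b) (qExpand K ℓ y) = qExpand K ℓ y := by
  rw [twist_qExpand, ← pow_mul, mul_comm, pow_mul, hζ, one_pow, twist_one_apply]

theorem embFamily_algebraMap (hζ : ζ ^ ℓ = 1) (i : Fin (ℓ + 1))
    (a : modularFunctionFieldFullC K N) :
    embFamily hℓ hℓN H hΦ hdeg ζ i (@algebraMap _ _ _ _ (algIncl K N ℓ) a) = baseHom K N ℓ a := by
  have hmem : (a : LaurentSeries K) ∈ modularFunctionFieldFullC K (N * ℓ) :=
    full_le_full_mul K N ℓ a.2
  have hx : @algebraMap _ _ _ _ (algIncl K N ℓ) a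
      = (⟨(a : LaurentSeries K), hmem⟩ : modularFunctionFieldFullC K (N * ℓ)) :=
    Subtype.ext (coe_algebraMap_algIncl a)
  rw [hx, baseHom_apply]
  induction i using Fin.lastCases with
  | last => rw [embFamily_last]
  | cast b =>
    rw [embFamily_castSucc, swapHom_of_mem hℓ hℓN H hΦ hdeg _ a.2 hmem, twist_pow_qExpand ζ hζ]

theorem embFamily_last_jdl (hm : jd K ℓ ∈ modularFunctionFieldFullC K (N * ℓ)) :
    embFamily hℓ hℓN H hΦ hdeg ζ (Fin.last ℓ) ⟨jd K ℓ, hm⟩ = jTw K 1 (ℓ * ℓ) := by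
  rw [embFamily_last, jTw_one]
  show qExpand K ℓ (qExpand K ℓ (jqModC K)) = _
  rw [qExpand_qExpand]

theorem embFamily_castSucc_jdl (hm : jd K ℓ ∈ modularFunctionFieldFullC K (N * ℓ)) (b : Fin ℓ) :
    embFamily hℓ hℓN H hΦ hdeg ζ (Fin.castSucc b) ⟨jd K ℓ, hm⟩ = jTw K (ζ ^ (b : ℕ)) 1 := by
  rw [embFamily_castSucc, swapHom_jdl, jTw, qExpand_one_apply]

theorem embFamily_injective (hζ : IsPrimitiveRoot ζ ℓ) :
    Function.Injective (embFamily hℓ hℓN H hΦ hdeg ζ) := by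
  have hm : jd K ℓ ∈ modularFunctionFieldFullC K (N * ℓ) :=
    jd_mem_full (N * ℓ) ℓ (Dvd.intro_left N rfl)
  have hℓ2 : 2 ≤ ℓ := hℓ.two_le
  have hne : ℓ * ℓ ≠ 1 := by
    intro h
    have : 2 * 2 ≤ ℓ * ℓ := Nat.mul_le_mul hℓ2 hℓ2
    omega
  intro i j hij
  have hval : embFamily hℓ hℓN H hΦ hdeg ζ i ⟨jd K ℓ, hm⟩
      = embFamily hℓ hℓN H hΦ hdeg ζ j ⟨jd K ℓ, hm⟩ := by rw [hij]
  induction i using Fin.lastCases with
  | last =>
    induction j using Fin.lastCases with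
    | last => rfl
    | cast c =>
      exfalso
      rw [embFamily_last_jdl, embFamily_castSucc_jdl] at hval
      exact hne (jTw_inj hval).1
  | cast b =>
    induction j using Fin.lastCases with
    | last =>
      exfalso
      rw [embFamily_last_jdl, embFamily_castSucc_jdl] at hval
      exact hne (jTw_inj hval).1.symm
    | cast c =>
      rw [embFamily_castSucc_jdl, embFamily_castSucc_jdl] at hval
      have h1 := (jTw_inj hval).2
      have h2 : (b : ℕ) = (c : ℕ) := hζ.pow_inj b.2 c.2 h1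
      rw [Fin.ext h2]

end EmbFamily


section Main

variable [CharZero K]

/-- **Norm formula, general element.**  `(N_{F'/F} x)(q^ℓ) = x(q^ℓ) · ∏_{b<ℓ} (W x)(ζ^b q)`. -/
theorem norm_eq_swap {Φ : Polynomial (Polynomial ℤ)} (hℓ : ℓ.Prime) (hℓN : ¬ ℓ ∣ N)
    (H : HasModPolys K (N * ℓ)) (hΦ : IsModPoly ℓ Φ) (ζ : Kˣ) (hζ : IsPrimitiveRoot ζ ℓ)
    (hfin : @Module.finrank ↥(modularFunctionFieldFullC K N)
      ↥(modularFunctionFieldFullC K (N * ℓ)) _ _ (algIncl K N ℓ).toModule = ℓ + 1)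
    (x : modularFunctionFieldFullC K (N * ℓ)) :
    qExpand K ℓ ((@Algebra.norm ↥(modularFunctionFieldFullC K N) _ _ _ (algIncl K N ℓ) x :
        modularFunctionFieldFullC K N) : LaurentSeries K)
      = qExpand K ℓ (x : LaurentSeries K) *
          ∏ b ∈ Finset.range ℓ, twist (ζ ^ b)
            (swapHom hℓ hℓN H hΦ (natDegree_minpoly_jdl hℓ hℓN H hΦ hfin) x) := by
  letI := algIncl K N ℓ
  haveI : FiniteDimensional ↥(modularFunctionFieldFullC K N)
      ↥(modularFunctionFieldFullC K (N * ℓ)) :=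
    Module.finite_of_finrank_pos (by rw [hfin]; omega)
  haveI : CharZero ↥(modularFunctionFieldFullC K N) :=
    charZero_of_injective_algebraMap (algebraMap K ↥(modularFunctionFieldFullC K N)).injective
  haveI : Algebra.IsSeparable ↥(modularFunctionFieldFullC K N)
      ↥(modularFunctionFieldFullC K (N * ℓ)) :=
    Algebra.IsSeparable.of_integral _ _
  have key := norm_eq_prod_of_embeddings (baseHom K N ℓ) hfin
    (embFamily hℓ hℓN H hΦ (natDegree_minpoly_jdl hℓ hℓN H hΦ hfin) ζ)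
    (fun i a => embFamily_algebraMap hℓ hℓN H hΦ _ ζ hζ.pow_eq_one i a)
    (embFamily_injective hℓ hℓN H hΦ _ ζ hζ) x
  rw [baseHom_apply] at key
  rw [key, Fin.prod_univ_castSucc, embFamily_last, mul_comm]
  congr 1
  simp_rw [embFamily_castSucc]
  exact Fin.prod_univ_eq_prod_range
    (fun b => twist (ζ ^ b) (swapHom hℓ hℓN H hΦ (natDegree_minpoly_jdl hℓ hℓN H hΦ hfin) x)) ℓ

/-- **NORM-ID.**  `(N_{F'/F} (y(q^ℓ)))(q^ℓ) = y(q^{ℓ²}) · ∏_{b<ℓ} y(ζ^b q)` for `y ∈ F`, i.e.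
`N_{F'/F}(β y) = y(q^ℓ) · ∏_b y(ζ^b q^{1/ℓ})`. -/
theorem norm_betaHom (hℓ : ℓ.Prime) (hℓN : ¬ ℓ ∣ N)
    (H : HasModPolys K (N * ℓ)) (ζ : Kˣ) (hζ : IsPrimitiveRoot ζ ℓ)
    (hfin : @Module.finrank ↥(modularFunctionFieldFullC K N)
      ↥(modularFunctionFieldFullC K (N * ℓ)) _ _ (algIncl K N ℓ).toModule = ℓ + 1)
    (y : modularFunctionFieldFullC K N) :
    qExpand K ℓ ((@Algebra.norm ↥(modularFunctionFieldFullC K N) _ _ _ (algIncl K N ℓ)
        (betaHom K N ℓ y) : modularFunctionFieldFullC K N) : LaurentSeries K)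
      = qExpand K (ℓ * ℓ) (y : LaurentSeries K) *
          ∏ b ∈ Finset.range ℓ, twist (ζ ^ b) (y : LaurentSeries K) := by
  obtain ⟨-, Φ, hΦ⟩ := H ℓ hℓ (Dvd.intro_left N rfl)
  rw [norm_eq_swap hℓ hℓN H hΦ ζ hζ hfin, coe_betaHom, qExpand_qExpand]
  simp_rw [swapHom_betaHom]

end Main

end Norm

end Fermat.Agent.S37.H157

end
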