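/-
S37 helper (helper157), piece NORM-ID, part E: unconditional form and identification with the
formal Kronecker norm.

* `finrank_algIncl`, `hasModPolys_of_charZero` : the two hypotheses of `norm_betaHom` hold for every
  field of characteristic `0` (from the landed S28 degree theory, `Fermat.Agent.S28.H988`).
* `qExpand_det_secMat` : `(det (secMat ℓ f))(q^ℓ) = ∏_{b<ℓ} f(ζ^b q)`.
* `norm_betaHom_eq_kronNorm` : for `y ∈ F = K(j(q^d) : d ∣ N)`, `ℓ ∤ N` prime,
    `N_{F'/F}(y(q^ℓ)) = kronNorm ℓ y = y(q^ℓ) · det (secMat ℓ y)`      (in `K((q))`),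
  with `kronNorm` the formal Kronecker norm of `Fermat.Agent.S37.H400` (which has the reduction
  statement `coeffMap_kronNorm_char`).
-/
import Mathlib
import Fermat.Agent.S28.H988.Degree
import Fermat.Agent.S37.H340.KronTwist
import Fermat.Agent.S37.H400.KronNorm
import Fermat.Agent.S37.H157.NormId

set_option autoImplicit false
set_option linter.unusedSectionVars false
set_option linter.style.haveILetI false

noncomputable section

open ModularCurve HahnSeries Polynomial IntermediateField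
open Fermat.Agent.S28.H626

namespace Fermat.Agent.S37.H157

/-! ### Discharging the hypotheses in characteristic zero -/

section Discharge

variable (K : Type*) [Field K] [CharZero K]

theorem hasModPolys_of_charZero (M : ℕ) : HasModPolys K M :=
  Fermat.Agent.S28.H867.hasModPolys K M
    (fun p hp _ _ => Fermat.Agent.S28.H807.nonempty_modPolyData p hp)
    (fun p hp _ => Nat.cast_ne_zero.mpr hp.ne_zero)

theorem finrank_algIncl (N ℓ : ℕ) [NeZero N] [NeZero ℓ] (hℓ : ℓ.Prime) (hℓN : ¬ ℓ ∣ N) :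
    @Module.finrank ↥(modularFunctionFieldFullC K N)
      ↥(modularFunctionFieldFullC K (N * ℓ)) _ _ (algIncl K N ℓ).toModule = ℓ + 1 := by
  have h := Fermat.Agent.S28.H988.relfinrank_full_mul_prime K N ℓ (NeZero.ne N) hℓ
    (fun r hr _ => Nat.cast_ne_zero.mpr hr.ne_zero)
  rw [if_neg hℓN, relfinrank_eq_finrank_of_le (full_le_full_mul K N ℓ)] at h
  rw [← h]
  letI := algIncl K N ℓ
  let e : ↥(modularFunctionFieldFullC K (N * ℓ)) ≃ₗ[↥(modularFunctionFieldFullC K N)]
      ↥(extendScalars (full_le_full_mul K N ℓ)) :=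
    { toFun := fun x => ⟨x.1, x.2⟩
      invFun := fun y => ⟨y.1, y.2⟩
      map_add' := fun _ _ => rfl
      map_smul' := fun _ _ => rfl
      left_inv := fun _ => rfl
      right_inv := fun _ => rfl }
  exact e.finrank_eq

end Discharge

/-! ### The product of the twists as a determinant -/

section Det

variable {K : Type*} [Field K] {ℓ : ℕ} [NeZero ℓ]

theorem kronMat_eq_secMat (f : LaurentSeries K) :
    Fermat.Agent.S37.H340.kronMat ℓ f = Fermat.Agent.S37.H400.secMat ℓ f := by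
  ext i j n
  rw [Fermat.Agent.S37.H340.kronMat_apply, Fermat.Agent.S37.H400.secMat_apply',
    Fermat.Agent.S37.H340.sect_coeff, Fermat.Agent.S37.H400.secL_coeff]

theorem zpw_eq_zpow (ζ : Kˣ) (hζ : ζ ^ ℓ = 1) (n : ℤ) :
    Fermat.Agent.S37.H340.zpw ℓ (ζ : K) n = ((ζ ^ n : Kˣ) : K) := by
  have hℓ : (ℓ : ℤ) ≠ 0 := by exact_mod_cast NeZero.ne ℓ
  have h1 : ζ ^ n = ζ ^ (n % (ℓ : ℤ)).toNat := by
    conv_lhs => rw [← Int.mul_ediv_add_emod n ℓ, zpow_add, zpow_mul, zpow_natCast, hζ, one_zpow,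
      one_mul]
    rw [← zpow_natCast, Int.toNat_of_nonneg (Int.emod_nonneg n hℓ)]
  rw [h1, Units.val_pow_eq_pow_val]
  rfl

theorem tw_eq_twist (ζ : Kˣ) (hζ : ζ ^ ℓ = 1) (f : LaurentSeries K) :
    Fermat.Agent.S37.H340.tw ℓ (ζ : K) f = twist ζ f := by
  ext n
  rw [Fermat.Agent.S37.H340.tw_coeff, twist_coeff, zpw_eq_zpow ζ hζ]

/-- `(det (secMat ℓ f))(q^ℓ) = ∏_{b<ℓ} f(ζ^b q)`. -/
theorem qExpand_det_secMat (ζ : Kˣ) (hζ : IsPrimitiveRoot ζ ℓ) (f : LaurentSeries K) :
    qExpand K ℓ (Fermat.Agent.S37.H400.secMat ℓ f).det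
      = ∏ b ∈ Finset.range ℓ, twist (ζ ^ b) f := by
  have hζ' : IsPrimitiveRoot (ζ : K) ℓ := hζ.map_of_injective (f := Units.coeHom K)
    Units.val_injective
  have hprod := Fermat.Agent.S37.H340.kron_map_qExpand_eq_prod hζ' f
  have h0 := congrArg (fun p : (LaurentSeries K)[X] => p.eval 0) hprod
  simp only [Polynomial.eval_prod, Polynomial.eval_sub, Polynomial.eval_X, Polynomial.eval_C,
    zero_sub] at h0
  rw [Polynomial.eval_zero_map, Fermat.Agent.S37.H340.kron, kronMat_eq_secMat,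
    ← Polynomial.coeff_zero_eq_eval_zero] at h0
  rw [Matrix.det_eq_sign_charpoly_coeff, Fintype.card_fin, map_mul, map_pow, map_neg, map_one, h0,
    Finset.prod_neg, Finset.card_univ, Fintype.card_fin, ← mul_assoc, ← mul_pow]
  simp only [mul_neg, mul_one, neg_neg, one_pow, one_mul]
  rw [← Fin.prod_univ_eq_prod_range (fun b => twist (ζ ^ b) f) ℓ]
  refine Finset.prod_congr rfl fun b _ => ?_
  have hb : (ζ ^ (b : ℕ)) ^ ℓ = 1 := by
    rw [← pow_mul, mul_comm, pow_mul, hζ.pow_eq_one, one_pow]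
  rw [← tw_eq_twist (ζ ^ (b : ℕ)) hb, Units.val_pow_eq_pow_val]

end Det

/-! ### NORM-ID in closed form -/

section Closed

variable {K : Type*} [Field K] [CharZero K] {N ℓ : ℕ} [NeZero N] [NeZero ℓ]

/-- **NORM-ID (closed form).**  For a prime `ℓ ∤ N`, a field `K` of characteristic `0` containing a
primitive `ℓ`-th root of unity and `y ∈ F = K(j(q^d) : d ∣ N)`:
`N_{F'/F}(y(q^ℓ)) = y(q^ℓ) · det (secMat ℓ y)`, the formal Kronecker norm. -/
theorem norm_betaHom_eq_kronNorm (hℓ : ℓ.Prime) (hℓN : ¬ ℓ ∣ N)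
    (ζ : Kˣ) (hζ : IsPrimitiveRoot ζ ℓ) (y : modularFunctionFieldFullC K N) :
    ((@Algebra.norm ↥(modularFunctionFieldFullC K N) _ _ _ (algIncl K N ℓ)
        (betaHom K N ℓ y) : modularFunctionFieldFullC K N) : LaurentSeries K)
      = Fermat.Agent.S37.H400.kronNorm ℓ (y : LaurentSeries K) := by
  apply qExpand_injective (R := K) ℓ
  rw [norm_betaHom hℓ hℓN (hasModPolys_of_charZero K (N * ℓ)) ζ hζ
    (finrank_algIncl K N ℓ hℓ hℓN), Fermat.Agent.S37.H400.kronNorm, map_mul, qExpand_qExpand,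
    qExpand_det_secMat ζ hζ]

end Closed

end Fermat.Agent.S37.H157

end
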