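import Fermat.Agent.S37.H157.NormBar

/-!
# S37 board v2, node `node_normid` (helper157): CLOSED

`NormIdStatement` is copied verbatim from `origin/helper37:Fermat/Agent/S37/Core/Skeleton3.lean`
(only the namespace differs); `node_normid` is the exact node statement, proved from
`norm_heckeBetaBar` (`NormBar.lean`).
-/

set_option autoImplicit false
set_option synthInstance.maxHeartbeats 400000

noncomputable section

namespace Fermat.Agent.S37.H157

open ModularCurve ValuationSubring AlgebraicCurve HahnSeries

/-- NODE [NORMID] statement: the norm of `β f` over `α F_M` is the formal Kronecker norm. -/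
def NormIdStatement (M ℓ : ℕ) [NeZero M] [NeZero ℓ] : Prop :=
  ∀ f : modularFunctionFieldBar M,
    (((letI := algebraAlong (heckeAlphaBar (AlgebraicClosure ℚ) M ℓ)
       Algebra.norm (modularFunctionFieldBar M) (heckeBetaBar (AlgebraicClosure ℚ) M ℓ f)) :
        modularFunctionFieldBar M) : LaurentSeries (AlgebraicClosure ℚ)) =
      Fermat.Agent.S37.H400.kronNorm ℓ (f : LaurentSeries (AlgebraicClosure ℚ))

/-- NODE [NORMID], exact board statement. -/
theorem node_normid (M ℓ : ℕ) [NeZero M] [NeZero ℓ] (hℓ : ℓ.Prime) (hℓM : ¬ ℓ ∣ M) :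
    NormIdStatement M ℓ :=
  fun f => norm_heckeBetaBar M ℓ hℓ hℓM f

end Fermat.Agent.S37.H157
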