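/-
S37 helper (helper157), piece NORM-ID, part F: Prelude form.

`norm_heckeBetaBar` : for a prime `ℓ ∤ N` and `y ∈ ℚ̄(X₀(N)) = modularFunctionFieldBar N`,
the norm of `β y = y(q^ℓ)` along `α : ℚ̄(X₀(N)) ⊆ ℚ̄(X₀(Nℓ))` (Prelude `heckeAlphaBar`,
`heckeBetaBar`, `algebraAlong`) has `q`-expansion the formal Kronecker norm
`kronNorm ℓ y = y(q^ℓ) · det (secMat ℓ y)` of `Fermat.Agent.S37.H400`.
This is input (I4) of the norm route to the Eichler–Shimura relation:
`T_ℓ (div y) = α_* β^* (div y) = div (Nm_α (β y))`.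
-/
import Mathlib
import Fermat.Prelude.Def_ModularCurve_HeckeOperator
import Fermat.Agent.S37.H157.NormKron

set_option autoImplicit false
set_option linter.unusedSectionVars false
set_option linter.style.haveILetI false

noncomputable section

open ModularCurve HahnSeries Polynomial IntermediateField AlgebraicCurve
open Fermat.Agent.S28.H626

namespace Fermat.Agent.S37.H157

section Transport

variable {K : Type*} [Field K] [CharZero K] {N ℓ : ℕ} [NeZero N] [NeZero ℓ]

/-- NORM-ID for any pair of intermediate fields equal to the two modular function fields. -/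
theorem norm_eq_kronNorm_of_eq (F₁ F₁' : IntermediateField K (LaurentSeries K))
    (h : F₁ = modularFunctionFieldFullC K N) (h' : F₁' = modularFunctionFieldFullC K (N * ℓ))
    (hle : F₁ ≤ F₁') (hℓ : ℓ.Prime) (hℓN : ¬ ℓ ∣ N) (ζ : Kˣ) (hζ : IsPrimitiveRoot ζ ℓ)
    (y : F₁) (hy : qExpand K ℓ (y : LaurentSeries K) ∈ F₁') :
    ((@Algebra.norm ↥F₁ ↥F₁' _ _ (IntermediateField.inclusion hle).toRingHom.toAlgebra
        ⟨qExpand K ℓ (y : LaurentSeries K), hy⟩ : F₁) : LaurentSeries K)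
      = Fermat.Agent.S37.H400.kronNorm ℓ (y : LaurentSeries K) := by
  subst h h'
  exact norm_betaHom_eq_kronNorm hℓ hℓN ζ hζ y

end Transport

section Prelude

variable (L : Type*) [Field L] [Algebra ℚ L] (N ℓ : ℕ) [NeZero N] [NeZero ℓ]

/-- **NORM-ID, Prelude form** (any field `L ⊇ ℚ` with a primitive `ℓ`-th root of unity). -/
theorem norm_heckeBetaBar_of_primitiveRoot (hℓ : ℓ.Prime) (hℓN : ¬ ℓ ∣ N)
    (ζ : Lˣ) (hζ : IsPrimitiveRoot ζ ℓ)
    (y : laurentBaseChange L (modularFunctionFieldFull N)) :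
    ((@Algebra.norm ↥(laurentBaseChange L (modularFunctionFieldFull N))
        ↥(laurentBaseChange L (modularFunctionFieldFull (N * ℓ))) _ _
        (algebraAlong (heckeAlphaBar L N ℓ)) (heckeBetaBar L N ℓ y) :
          laurentBaseChange L (modularFunctionFieldFull N)) : LaurentSeries L)
      = Fermat.Agent.S37.H400.kronNorm ℓ (y : LaurentSeries L) := by
  haveI : CharZero L := algebraRat.charZero L
  exact norm_eq_kronNorm_of_eq _ _
    (Fermat.Agent.S28.H988.laurentBaseChange_full_eq_fullC L N)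
    (Fermat.Agent.S28.H988.laurentBaseChange_full_eq_fullC L (N * ℓ)) _ hℓ hℓN ζ hζ y _

end Prelude

section Bar

variable (N ℓ : ℕ) [NeZero N] [NeZero ℓ]

/-- **NORM-ID over `ℚ̄`.**  `Nm_α (β y) = kronNorm ℓ y` in `ℚ̄((q))`. -/
theorem norm_heckeBetaBar (hℓ : ℓ.Prime) (hℓN : ¬ ℓ ∣ N) (y : modularFunctionFieldBar N) :
    ((@Algebra.norm ↥(modularFunctionFieldBar N) ↥(modularFunctionFieldBar (N * ℓ)) _ _
        (algebraAlong (heckeAlphaBar (AlgebraicClosure ℚ) N ℓ))
        (heckeBetaBar (AlgebraicClosure ℚ) N ℓ y) : modularFunctionFieldBar N) :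
          LaurentSeries (AlgebraicClosure ℚ))
      = Fermat.Agent.S37.H400.kronNorm ℓ (y : LaurentSeries (AlgebraicClosure ℚ)) := by
  haveI : NeZero ((ℓ : ℕ) : AlgebraicClosure ℚ) := ⟨Nat.cast_ne_zero.mpr hℓ.ne_zero⟩
  obtain ⟨ζ, hζ⟩ := exists_primitiveRoot_unit (AlgebraicClosure ℚ) ℓ hℓ.ne_zero
  exact norm_heckeBetaBar_of_primitiveRoot (AlgebraicClosure ℚ) N ℓ hℓ hℓN ζ hζ y

end Bar

end Fermat.Agent.S37.H157

end
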