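/-
S37 helper (helper157), piece NORM-ID, part A: the norm of a finite separable field extension
as the product over an explicitly given full list of pairwise distinct embeddings into an
arbitrary field `Ω` (not necessarily algebraically closed).  Mathlib only.
-/
import Mathlib

set_option autoImplicit false

noncomputable section

namespace Fermat.Agent.S37.H157

open Polynomial

/-- If `σ i : E →+* Ω` (`i : Fin n`, `n = [E : F]`) are pairwise distinct ring homomorphisms
all restricting to the same `ι : F →+* Ω`, then `ι (N_{E/F} x) = ∏ i, σ i x`. -/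
theorem norm_eq_prod_of_embeddings {F E Ω : Type*} [Field F] [Field E] [Field Ω] [Algebra F E]
    [FiniteDimensional F E] [Algebra.IsSeparable F E]
    (ι : F →+* Ω) {n : ℕ} (hn : Module.finrank F E = n) (σ : Fin n → (E →+* Ω))
    (hσ : ∀ i (a : F), σ i (algebraMap F E a) = ι a) (hinj : Function.Injective σ) (x : E) :
    ι (Algebra.norm F x) = ∏ i, σ i x := by
  classical
  letI : Algebra F (AlgebraicClosure Ω) := ((algebraMap Ω (AlgebraicClosure Ω)).comp ι).toAlgebra
  have halg : ∀ a : F, algebraMap F (AlgebraicClosure Ω) a
      = algebraMap Ω (AlgebraicClosure Ω) (ι a) := fun a => rfl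
  -- the embeddings as `F`-algebra homomorphisms into the algebraic closure
  let τ : Fin n → (E →ₐ[F] AlgebraicClosure Ω) := fun i =>
    { toRingHom := (algebraMap Ω (AlgebraicClosure Ω)).comp (σ i)
      commutes' := fun a => by
        show algebraMap Ω (AlgebraicClosure Ω) (σ i (algebraMap F E a)) = _
        rw [hσ i a, halg] }
  have hτ : ∀ i (y : E), τ i y = algebraMap Ω (AlgebraicClosure Ω) (σ i y) := fun i y => rfl
  have hτinj : Function.Injective τ := by
    intro i j hij
    apply hinj
    ext y
    have := congrArg (fun f : E →ₐ[F] AlgebraicClosure Ω => f y) hij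
    simp only [hτ] at this
    exact (algebraMap Ω (AlgebraicClosure Ω)).injective this
  have hcard : Fintype.card (Fin n) = Fintype.card (E →ₐ[F] AlgebraicClosure Ω) := by
    rw [Fintype.card_fin, AlgHom.card F E (AlgebraicClosure Ω), hn]
  have hbij : Function.Bijective τ :=
    (Fintype.bijective_iff_injective_and_card τ).mpr ⟨hτinj, hcard⟩
  have key := Algebra.norm_eq_prod_embeddings F (AlgebraicClosure Ω) x
  rw [halg] at key
  apply (algebraMap Ω (AlgebraicClosure Ω)).injective
  rw [key, map_prod]
  rw [← Fintype.prod_bijective τ hbij (fun i => algebraMap Ω (AlgebraicClosure Ω) (σ i x))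
    (fun f => f x) (fun i => rfl)]

end Fermat.Agent.S37.H157

end
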